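import Fermat.Agent.S18.FF.PrincipalDiv

/-!
# S18, package K8 (FF): the two charts of a function field, and Riemann's theorem without class
hypotheses (helper4042).

Setting: `x : F` with `F` finite separable over `K⟮x⟯`.

* `forall_ord_nonneg_iff_isIntegral x f` : `f` is regular at all places where `x` is regular iff
  `f` is integral over `K[x]` (finite chart = integral closure of `K[x]`);
* `mem_riemannRochSpace_nsmul_poleDiv_iff x hx m f` : `f ∈ L(m (x)_∞)` iff `f` is integral over
  `K[x]` and `f / x^m` is integral over `K[1/x]`;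
* `riemann_roch x hx D`, `exists_degree_bound x hx`, `exists_nsmul_poleDiv_bound x hx` :
  Riemann's theorem of `Fermat.Agent.RR7222` (helper7222) with its two class hypotheses
  discharged by `PD.hasPrincipalDivisors` / `PD.finiteResidue` (any characteristic).
-/

set_option autoImplicit false

namespace Fermat.Agent.S18.FF

open AlgebraicCurve IntermediateField IsDedekindDomain
open scoped IntermediateField.algebraAdjoinAdjoin

variable {K F : Type*} [Field K] [Field F] [Algebra K F]

/-- **Finite chart.**  A function is regular at every place where `x` is regular iff it is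
integral over `K[x]`. -/
theorem forall_ord_nonneg_iff_isIntegral (x : F) [FiniteDimensional K⟮x⟯ F]
    [Algebra.IsSeparable K⟮x⟯ F] (f : F) :
    (∀ v : Place K F, 0 ≤ v.ord x → 0 ≤ v.ord f) ↔ IsIntegral (Algebra.adjoin K {x}) f := by
  constructor
  · intro h
    classical
    let R := Algebra.adjoin K {x}
    let B := integralClosure R F
    have : IsPrincipalIdealRing R := S24.A564.SO.adjoin_isPrincipalIdealRing x
    have : IsDedekindDomain B := IsIntegralClosure.isDedekindDomain R K⟮x⟯ F B
    have : IsFractionRing B F := IsIntegralClosure.isFractionRing_of_finite_extension R K⟮x⟯ F B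
    have hmem : f ∈ (algebraMap B F).range := by
      apply HeightOneSpectrum.mem_integers_of_valuation_le_one F f
      intro w
      by_cases hf : f = 0
      · rw [hf, map_zero]
        exact zero_le
      let xR : R := ⟨x, Algebra.self_mem_adjoin_singleton K x⟩
      have hx1 : w.valuation F x ≤ 1 := w.valuation_le_one (algebraMap R B xR)
      have hxmem : x ∈ (Place.ofHeightOneSpectrum (K := K) (F := F) w).toValuationSubring := by
        rw [Place.ofHeightOneSpectrum_toValuationSubring, Valuation.mem_valuationSubring_iff]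
        exact hx1
      have hordf := h _ (S24.A564.SO.Place_ord_nonneg_of_mem _ hxmem)
      rw [S24.A564.SO.Place_ofHeightOneSpectrum_ord] at hordf
      have hne : w.valuation F f ≠ 0 := (Valuation.ne_zero_iff _).mpr hf
      rw [← WithZero.exp_log hne, ← WithZero.exp_zero, WithZero.exp_le_exp]
      omega
    obtain ⟨b, rfl⟩ := hmem
    exact b.2
  · intro hint v hv
    have hxmem := S24.A564.SO.Place_mem_of_ord_nonneg v hv
    have hR := S24.A564.SO.Place_adjoin_le v hxmem
    exact S24.A564.SO.Place_ord_nonneg_of_mem v (S24.A564.SO.Place_mem_of_isIntegral v hR hint)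

/-- **Two charts.**  `L(m (x)_∞)` consists of the functions integral over `K[x]` whose quotient
by `x^m` is integral over `K[1/x]`. -/
theorem mem_riemannRochSpace_nsmul_poleDiv_iff [HasPrincipalDivisors K F] (x : F)
    (hx : Transcendental K x) [FiniteDimensional K⟮x⟯ F] [Algebra.IsSeparable K⟮x⟯ F] (m : ℕ)
    (f : F) :
    f ∈ riemannRochSpace (m • RR7222.poleDiv (K := K) x) ↔
      IsIntegral (Algebra.adjoin K {x}) f ∧
        IsIntegral (Algebra.adjoin K {x⁻¹}) (f * x⁻¹ ^ m) := by
  have hfd : FiniteDimensional K⟮x⁻¹⟯ F := by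
    rw [RR7222.adjoin_inv_eq]
    infer_instance
  have hsep : Algebra.IsSeparable K⟮x⁻¹⟯ F := by
    rw [RR7222.adjoin_inv_eq]
    infer_instance
  have hx0 : x ≠ 0 := by
    rintro rfl
    exact hx isAlgebraic_zero
  rw [mem_riemannRochSpace_iff, ← forall_ord_nonneg_iff_isIntegral x f,
    ← forall_ord_nonneg_iff_isIntegral x⁻¹ (f * x⁻¹ ^ m)]
  by_cases hf : f = 0
  · subst hf
    simp
  have key : ∀ v : Place K F, v.ord (f * x⁻¹ ^ m) = v.ord f - m * v.ord x := by
    intro v
    rw [v.ord_mul hf (pow_ne_zero _ (inv_ne_zero hx0)), ← zpow_natCast, v.ord_zpow, v.ord_inv]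
    ring
  have hD : ∀ v : Place K F,
      (m • RR7222.poleDiv (K := K) x) v = (m : ℤ) * max 0 (-v.ord x) := by
    intro v
    rw [Finsupp.smul_apply, RR7222.poleDiv_apply, nsmul_eq_mul]
  constructor
  · intro h
    refine ⟨fun v hv => ?_, fun v hv => ?_⟩
    · have h1 := (h v).resolve_left hf
      rw [hD, max_eq_left (by omega), mul_zero, neg_zero] at h1
      exact h1
    · have h1 := (h v).resolve_left hf
      rw [v.ord_inv] at hv
      rw [key, hD, max_eq_right (by omega)] at *
      linarith
  · rintro ⟨h1, h2⟩ v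
    right
    rw [hD]
    rcases le_or_gt 0 (v.ord x) with hv | hv
    · rw [max_eq_left (by omega), mul_zero, neg_zero]
      exact h1 v hv
    · have h3 := h2 v (by rw [v.ord_inv]; omega)
      rw [key] at h3
      rw [max_eq_right (by omega)]
      linarith

/-! ## Riemann's theorem, all hypotheses discharged -/

/-- **Riemann–Roch (Riemann's part)** for a function field with a separating variable over an
algebraically closed field of arbitrary characteristic. -/
theorem riemann_roch [IsAlgClosed K] (x : F) (hx : Transcendental K x)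
    [FiniteDimensional K⟮x⟯ F] [Algebra.IsSeparable K⟮x⟯ F] (D : Divisor K F) :
    Module.Finite K (H1 D) ∧ Module.Finite K ↥(riemannRochSpace D) ∧
    (Module.finrank K ↥(riemannRochSpace D) : ℤ) - (Module.finrank K (H1 D) : ℤ)
      = Divisor.degree D + 1 - (genusFF K F : ℤ) := by
  have := PD.hasPrincipalDivisors x hx
  have : ∀ v : Place K F, v.FiniteResidue := PD.finiteResidue x
  exact RR7222.riemann_roch_of_transcendental x hx D

/-- Riemann's inequality. -/
theorem riemann_ineq [IsAlgClosed K] (x : F) (hx : Transcendental K x)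
    [FiniteDimensional K⟮x⟯ F] [Algebra.IsSeparable K⟮x⟯ F] (D : Divisor K F) :
    Divisor.degree D + 1 - (genusFF K F : ℤ) ≤ Module.finrank K ↥(riemannRochSpace D) := by
  obtain ⟨-, -, h⟩ := riemann_roch x hx D
  have h0 : (0 : ℤ) ≤ (Module.finrank K (H1 D) : ℤ) := Nat.cast_nonneg _
  linarith

/-- Riemann's theorem: `H¹(D) = 0` and `l(D) = deg D + 1 - g` in large degree. -/
theorem exists_degree_bound [IsAlgClosed K] (x : F) (hx : Transcendental K x)
    [FiniteDimensional K⟮x⟯ F] [Algebra.IsSeparable K⟮x⟯ F] :
    ∃ c : ℤ, ∀ D : Divisor K F, c ≤ Divisor.degree D →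
      Subsingleton (H1 D) ∧
      (Module.finrank K ↥(riemannRochSpace D) : ℤ) = Divisor.degree D + 1 - (genusFF K F : ℤ) := by
  have := PD.hasPrincipalDivisors x hx
  have : ∀ v : Place K F, v.FiniteResidue := PD.finiteResidue x
  exact RR7222.exists_degree_bound_of_transcendental x hx

/-- The genus read off from the multiples of the pole divisor of a separating variable:
`l(m (x)_∞) = m [F : K(x)] + 1 - g` for `m` large. -/
theorem exists_nsmul_poleDiv_bound [IsAlgClosed K] [HasPrincipalDivisors K F] (x : F)
    (hx : Transcendental K x) [FiniteDimensional K⟮x⟯ F] [Algebra.IsSeparable K⟮x⟯ F] :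
    ∃ m₀ : ℕ, ∀ m : ℕ, m₀ ≤ m →
      (Module.finrank K ↥(riemannRochSpace (m • RR7222.poleDiv (K := K) x)) : ℤ) =
        (m : ℤ) * (Module.finrank K⟮x⟯ F : ℤ) + 1 - (genusFF K F : ℤ) := by
  have : ∀ v : Place K F, v.FiniteResidue := PD.finiteResidue x
  obtain ⟨c, hc⟩ := RR7222.exists_degree_bound_of_transcendental (K := K) x hx
  obtain ⟨-, hdeg⟩ := RR7222.degree_poleDiv_eq (K := K) x hx
  have hpos : 0 < Module.finrank K⟮x⟯ F := Module.finrank_pos
  refine ⟨c.toNat, fun m hm => ?_⟩
  have hdegm : Divisor.degree (m • RR7222.poleDiv (K := K) x) =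
      (m : ℤ) * (Module.finrank K⟮x⟯ F : ℤ) := by
    rw [map_nsmul, hdeg, nsmul_eq_mul]
  have hle : c ≤ Divisor.degree (m • RR7222.poleDiv (K := K) x) := by
    rw [hdegm]
    have h1 : c ≤ (m : ℤ) := by
      have := Int.toNat_le.mp hm
      exact this
    have h2 : (1 : ℤ) ≤ (Module.finrank K⟮x⟯ F : ℤ) := by exact_mod_cast hpos
    rcases le_or_gt 0 c with hc0 | hc0
    · nlinarith
    · have : (0 : ℤ) ≤ (m : ℤ) * (Module.finrank K⟮x⟯ F : ℤ) :=
        mul_nonneg (Nat.cast_nonneg _) (Nat.cast_nonneg _)
      linarith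
  rw [(hc _ hle).2, hdegm]

end Fermat.Agent.S18.FF
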