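import Fermat.Agent.RR7222.AlgClosed
import Fermat.Agent.S24.A564.PlacesDedekind
import Fermat.Agent.S24.A564.KaehlerRankOne

/-!
# S18, package K8 (FF): `HasPrincipalDivisors` and finite residue fields in every characteristic
(helper4042).

Setting: `K` algebraically closed (any characteristic), `x : F` transcendental over `K`, and `F`
finite separable over `K⟮x⟯` (a separating variable).  Then

* `finite_residueField x hx v` : every residue field is finite over `K`;
* `finiteResidue x hx` : `∀ v : Place K F, v.FiniteResidue`;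
* `deg_eq_one x hx v` : every place has degree one;
* `hasPrincipalDivisors x hx` : `HasPrincipalDivisors K F` (finite support and degree zero of
  principal divisors).

These are exactly the two class hypotheses of the Riemann package `Fermat.Agent.RR7222`
(helper7222), which therefore applies to the characteristic `ℓ` modular function field once a
separating variable is known.

The point in characteristic `p` is that `F / K⟮f⟯` need not be separable.  We do not prove
"`f` non-separating implies `f` is a `p`-th power"; instead (`isSeparable_mul`): if `F / K⟮f⟯` is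
inseparable then `f * x` is transcendental and `F / K⟮f * x⟯` is separable (derivation
argument: the `K`-derivations of `F` form a line, a derivation killing `x` is zero).  Then
`div f = div (f * x) - div x` with both divisors of degree zero by the count of zeros
(`RR7222.exists_finset_zeros_sum_ord_of_isSeparable`).
-/

set_option autoImplicit false

namespace Fermat.Agent.S18.FF.PD

open AlgebraicCurve IntermediateField
open scoped IntermediateField.algebraAdjoinAdjoin

variable {K F : Type*} [Field K] [Field F] [Algebra K F]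

/-! ## Finiteness exchange -/

theorem essFiniteType_of_finite (x : F) [FiniteDimensional K⟮x⟯ F] :
    Algebra.EssFiniteType K F := by
  have h1 : Algebra.EssFiniteType K K⟮x⟯ :=
    IntermediateField.essFiniteType_iff.mpr
      (IntermediateField.fg_adjoin_of_finite (Set.finite_singleton x))
  have h2 : Algebra.EssFiniteType K⟮x⟯ F := inferInstance
  exact Algebra.EssFiniteType.comp K K⟮x⟯ F

/-- `F` is finite over `K⟮t⟯` for every transcendental `t`. -/
theorem finiteDimensional_adjoin (x t : F) (hx : Transcendental K x) (ht : Transcendental K t)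
    [FiniteDimensional K⟮x⟯ F] : FiniteDimensional K⟮t⟯ F := by
  have := S24.A564.KR.isAlgebraic_adjoin_of_transcendental x t hx ht
  have : Algebra.EssFiniteType K F := essFiniteType_of_finite x
  have : Algebra.EssFiniteType K⟮t⟯ F := Algebra.EssFiniteType.of_comp K K⟮t⟯ F
  exact Algebra.finite_of_essFiniteType_of_isAlgebraic

theorem transcendental_inv {x : F} (hx : Transcendental K x) : Transcendental K x⁻¹ :=
  fun h => hx (by simpa using h.inv)

/-! ## Residue fields -/

/-- The residue field at a place whose valuation ring contains a separating variable `s`. -/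
theorem residue_surjective_of_mem [IsAlgClosed K] (v : Place K F) (s : F)
    [FiniteDimensional K⟮s⟯ F] [Algebra.IsSeparable K⟮s⟯ F] (hsv : s ∈ v.toValuationSubring) :
    Function.Surjective (algebraMap K v.ResidueField) := by
  classical
  let R := Algebra.adjoin K {s}
  let B := integralClosure R F
  have : IsPrincipalIdealRing R := S24.A564.SO.adjoin_isPrincipalIdealRing s
  have : IsDedekindDomain B := IsIntegralClosure.isDedekindDomain R K⟮s⟯ F B
  have : IsFractionRing B F := IsIntegralClosure.isFractionRing_of_finite_extension R K⟮s⟯ F B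
  have : Module.Finite R B := IsIntegralClosure.finite R K⟮s⟯ F B
  have : Algebra.FiniteType K R := by
    have h : Algebra.adjoin K {s} = (Polynomial.aeval s : Polynomial K →ₐ[K] F).range :=
      Algebra.adjoin_singleton_eq_range_aeval K s
    show Algebra.FiniteType K (Algebra.adjoin K {s})
    rw [h]
    exact Algebra.FiniteType.of_surjective (Polynomial.aeval s : Polynomial K →ₐ[K] F).rangeRestrict
      (AlgHom.rangeRestrict_surjective _)
  have : Algebra.FiniteType K B := Algebra.FiniteType.trans (S := R) inferInstance inferInstance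
  have hR : R ≤ S24.A564.SO.Place_subalgebra v := S24.A564.SO.Place_adjoin_le v hsv
  have hB : ∀ b : B, algebraMap B F b ∈ v.toValuationSubring := fun b =>
    S24.A564.SO.Place_mem_of_isIntegral v hR b.2
  exact S24.A564.LD.residue_surjective_of_finiteType v hB

/-- Residue fields of a function field with a separating variable are equal to `K`. -/
theorem residue_surjective [IsAlgClosed K] (x : F) [FiniteDimensional K⟮x⟯ F]
    [Algebra.IsSeparable K⟮x⟯ F] (v : Place K F) :
    Function.Surjective (algebraMap K v.ResidueField) := by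
  rcases v.toValuationSubring.mem_or_inv_mem x with h | h
  · exact residue_surjective_of_mem v x h
  · have hfd : FiniteDimensional K⟮x⁻¹⟯ F := by
      rw [RR7222.adjoin_inv_eq]
      infer_instance
    have hsep : Algebra.IsSeparable K⟮x⁻¹⟯ F := by
      rw [RR7222.adjoin_inv_eq]
      infer_instance
    exact residue_surjective_of_mem v x⁻¹ h

theorem finite_residueField [IsAlgClosed K] (x : F) [FiniteDimensional K⟮x⟯ F]
    [Algebra.IsSeparable K⟮x⟯ F] (v : Place K F) : Module.Finite K v.ResidueField :=
  Module.Finite.of_surjective (Algebra.linearMap K v.ResidueField) (residue_surjective x v)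

theorem finiteResidue [IsAlgClosed K] (x : F) [FiniteDimensional K⟮x⟯ F]
    [Algebra.IsSeparable K⟮x⟯ F] (v : Place K F) : v.FiniteResidue :=
  ⟨finite_residueField x v⟩

theorem deg_eq_one [IsAlgClosed K] (x : F) [FiniteDimensional K⟮x⟯ F]
    [Algebra.IsSeparable K⟮x⟯ F] (v : Place K F) : v.deg = 1 := by
  have := finite_residueField x v
  exact v.deg_eq_one_of_isAlgClosed_of_finite

/-! ## Derivations -/

/-- A `K`-derivation of `F` killing `x` kills `K⟮x⟯`. -/
theorem derivation_apply_eq_zero_of_mem_adjoin (x : F) (δ : Derivation K F F) (h : δ x = 0)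
    {a : F} (ha : a ∈ K⟮x⟯) : δ a = 0 := by
  induction ha using IntermediateField.adjoin_induction with
  | mem y hy =>
    rw [Set.mem_singleton_iff] at hy
    rw [hy, h]
  | algebraMap c => exact δ.map_algebraMap c
  | add y z _ _ hy hz => rw [map_add, hy, hz, add_zero]
  | inv y _ hy => rw [Derivation.leibniz_inv, hy, smul_zero]
  | mul y z _ _ hy hz => rw [Derivation.leibniz, hy, hz, smul_zero, smul_zero, add_zero]

/-- A `K`-derivation of `F` killing a separating variable is zero. -/
theorem derivation_eq_zero_of_apply_eq_zero (x : F) [Algebra.IsSeparable K⟮x⟯ F]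
    (δ : Derivation K F F) (h : δ x = 0) : δ = 0 := by
  have hker : ∀ a : K⟮x⟯, δ (a : F) = 0 := fun a =>
    derivation_apply_eq_zero_of_mem_adjoin x δ h a.2
  let L : F →ₗ[K⟮x⟯] F :=
    { toFun := fun y => δ y
      map_add' := fun y z => map_add δ y z
      map_smul' := fun a y => by
        show δ (a • y) = a • δ y
        rw [IntermediateField.smul_def, IntermediateField.smul_def, smul_eq_mul, smul_eq_mul,
          Derivation.leibniz, hker a, smul_zero, add_zero, smul_eq_mul] }
  let δ' : Derivation K⟮x⟯ F F := Derivation.mk' L (fun a b => δ.leibniz a b)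
  have : Algebra.FormallyUnramified K⟮x⟯ F := Algebra.FormallyUnramified.of_isSeparable K⟮x⟯ F
  have hsub : Subsingleton Ω[F⁄K⟮x⟯] := Algebra.FormallyUnramified.subsingleton_kaehlerDifferential
  ext y
  have h1 : δ' y = δ'.liftKaehlerDifferential (KaehlerDifferential.D K⟮x⟯ F y) :=
    (Derivation.liftKaehlerDifferential_comp_D δ' y).symm
  have h2 : KaehlerDifferential.D K⟮x⟯ F y = 0 := Subsingleton.elim _ _
  have h3 : δ' y = 0 := by rw [h1, h2, map_zero]
  exact h3

/-- A finitely generated inseparable field extension carries a nonzero derivation. -/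
theorem exists_derivation_ne_zero {L E : Type*} [Field L] [Field E] [Algebra L E]
    [Algebra.EssFiniteType L E] (h : ¬ Algebra.IsSeparable L E) :
    ∃ (δ : Derivation L E E) (y : E), δ y ≠ 0 := by
  have h1 : ¬ Subsingleton Ω[E⁄L] := by
    rw [← Algebra.formallyUnramified_iff, Algebra.FormallyUnramified.iff_isSeparable]
    exact h
  rw [not_subsingleton_iff_nontrivial] at h1
  obtain ⟨ω, hω⟩ := exists_ne (0 : Ω[E⁄L])
  have h2 : ¬ ∀ φ : Module.Dual E Ω[E⁄L], φ ω = 0 := fun hall =>
    hω ((Module.forall_dual_apply_eq_zero_iff E ω).mp hall)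
  rw [not_forall] at h2
  obtain ⟨φ, hφ⟩ := h2
  by_contra hcon
  rw [not_exists] at hcon
  apply hφ
  have hφ0 : φ = 0 := by
    refine LinearMap.ext_on (KaehlerDifferential.span_range_derivation L E) ?_
    rintro _ ⟨y, rfl⟩
    have := hcon (φ.compDer (KaehlerDifferential.D L E))
    rw [not_exists] at this
    have hy := this y
    rw [not_not] at hy
    simpa using hy
  rw [hφ0, LinearMap.zero_apply]

/-- An element of `F` algebraic over the algebraically closed field `K` is a constant. -/
theorem exists_algebraMap_eq_of_isAlgebraic [IsAlgClosed K] {a : F} (ha : IsAlgebraic K a) :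
    ∃ c : K, algebraMap K F c = a := by
  have hint : IsIntegral K a := ha.isIntegral
  have hdeg : (minpoly K a).degree = 1 :=
    IsAlgClosed.degree_eq_one_of_irreducible K (minpoly.irreducible hint)
  exact minpoly.mem_range_of_degree_eq_one K a hdeg

/-- **Separating trick.**  If `F / K⟮f⟯` is inseparable, then `f * x` is a separating variable. -/
theorem isSeparable_mul [IsAlgClosed K] (x : F) (hx : Transcendental K x)
    [FiniteDimensional K⟮x⟯ F] [Algebra.IsSeparable K⟮x⟯ F] (f : F) (hf : Transcendental K f)
    (hns : ¬ Algebra.IsSeparable K⟮f⟯ F) :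
    Transcendental K (f * x) ∧ Algebra.IsSeparable K⟮f * x⟯ F := by
  have hf0 : f ≠ 0 := by
    rintro rfl
    exact hf isAlgebraic_zero
  have hfd : FiniteDimensional K⟮f⟯ F := finiteDimensional_adjoin x f hx hf
  obtain ⟨δ₀, y₀, hy₀⟩ := exists_derivation_ne_zero hns
  let δ : Derivation K F F := δ₀.restrictScalars K
  have hδ : ∀ y, δ y = δ₀ y := fun y => rfl
  have hδf : δ f = 0 := by
    rw [hδ]
    exact δ₀.map_algebraMap (⟨f, mem_adjoin_simple_self K f⟩ : K⟮f⟯)
  have hδx : δ x ≠ 0 := by
    intro h
    have h0 := derivation_eq_zero_of_apply_eq_zero x δ h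
    apply hy₀
    rw [← hδ, h0]
    rfl
  have hδfx : δ (f * x) ≠ 0 := by
    rw [Derivation.leibniz, hδf, smul_zero, add_zero, smul_eq_mul]
    exact mul_ne_zero hf0 hδx
  have htr : Transcendental K (f * x) := by
    intro halg
    obtain ⟨c, hc⟩ := exists_algebraMap_eq_of_isAlgebraic halg
    apply hδfx
    rw [← hc]
    exact δ.map_algebraMap c
  refine ⟨htr, ?_⟩
  have hfd' : FiniteDimensional K⟮f * x⟯ F := finiteDimensional_adjoin x (f * x) hx htr
  by_contra hns'
  obtain ⟨δ₁, y₁, hy₁⟩ := exists_derivation_ne_zero hns'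
  let δ' : Derivation K F F := δ₁.restrictScalars K
  have hδ' : ∀ y, δ' y = δ₁ y := fun y => rfl
  have hδ'fx : δ' (f * x) = 0 := by
    rw [hδ']
    exact δ₁.map_algebraMap (⟨f * x, mem_adjoin_simple_self K (f * x)⟩ : K⟮f * x⟯)
  have hδ'x : δ' x ≠ 0 := by
    intro h
    have h0 := derivation_eq_zero_of_apply_eq_zero x δ' h
    apply hy₁
    rw [← hδ', h0]
    rfl
  set c : F := δ' x / δ x with hc
  have hη : δ' - c • δ = 0 := by
    apply derivation_eq_zero_of_apply_eq_zero x
    rw [Derivation.sub_apply, Derivation.smul_apply, smul_eq_mul, hc, div_mul_cancel₀ _ hδx,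
      sub_self]
  have h1 : δ' (f * x) = c * δ (f * x) := by
    have := congrArg (fun η : Derivation K F F => η (f * x)) hη
    simp only [Derivation.sub_apply, Derivation.smul_apply, smul_eq_mul] at this
    exact sub_eq_zero.mp this
  rw [hδ'fx] at h1
  have hc0 : c ≠ 0 := div_ne_zero hδ'x hδx
  exact mul_ne_zero hc0 hδfx h1.symm

/-! ## Principal divisors -/

/-- The divisor of a separating variable: finite support and degree zero. -/
theorem exists_divisor_of_isSeparable [IsAlgClosed K] [∀ v : Place K F, v.FiniteResidue] (s : F)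
    (hs : Transcendental K s) [FiniteDimensional K⟮s⟯ F] [Algebra.IsSeparable K⟮s⟯ F] :
    ∃ D : Divisor K F, (∀ v : Place K F, D v = v.ord s) ∧ Divisor.degree D = 0 := by
  classical
  have hs' : Transcendental K s⁻¹ := transcendental_inv hs
  have hfd : FiniteDimensional K⟮s⁻¹⟯ F := by
    rw [RR7222.adjoin_inv_eq]
    infer_instance
  have hsep : Algebra.IsSeparable K⟮s⁻¹⟯ F := by
    rw [RR7222.adjoin_inv_eq]
    infer_instance
  obtain ⟨S₀, hS₀, hsum₀⟩ := RR7222.exists_finset_zeros_sum_ord_of_isSeparable (K := K) s hs
  obtain ⟨S₁, hS₁, hsum₁⟩ := RR7222.exists_finset_zeros_sum_ord_of_isSeparable (K := K) s⁻¹ hs'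
  have hrank : Module.finrank K⟮s⁻¹⟯ F = Module.finrank K⟮s⟯ F := by
    rw [RR7222.adjoin_inv_eq]
  rw [hrank] at hsum₁
  have hmem : ∀ v : Place K F, v.ord s ≠ 0 → v ∈ S₀ ∪ S₁ := by
    intro v hv
    rw [Finset.mem_union, hS₀, hS₁, v.ord_inv]
    omega
  let D : Divisor K F := Finsupp.onFinset (S₀ ∪ S₁) (fun v => v.ord s) hmem
  have hD : ∀ v : Place K F, D v = v.ord s := fun v => rfl
  refine ⟨D, hD, ?_⟩
  have hsub : D.support ⊆ S₀ ∪ S₁ := by
    intro v hv
    rw [Finsupp.mem_support_iff, hD] at hv
    exact hmem v hv
  have hdisj : Disjoint S₀ S₁ := by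
    rw [Finset.disjoint_left]
    intro v h0 h1
    rw [hS₀] at h0
    rw [hS₁, v.ord_inv] at h1
    omega
  rw [RR7222.degree_eq_sum_of_subset D (S₀ ∪ S₁) hsub, Finset.sum_union hdisj]
  have e0 : ∑ v ∈ S₀, D v = (Module.finrank K⟮s⟯ F : ℤ) := by
    rw [← hsum₀]
    exact Finset.sum_congr rfl fun v _ => hD v
  have e1 : ∑ v ∈ S₁, D v = -(Module.finrank K⟮s⟯ F : ℤ) := by
    rw [← hsum₁, ← Finset.sum_neg_distrib]
    refine Finset.sum_congr rfl fun v _ => ?_
    rw [hD, v.ord_inv, neg_neg]
  rw [e0, e1, add_neg_cancel]

/-- **Principal divisors** of a function field with a separating variable over an algebraically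
closed field of arbitrary characteristic have finite support and degree zero. -/
theorem hasPrincipalDivisors [IsAlgClosed K] (x : F) (hx : Transcendental K x)
    [FiniteDimensional K⟮x⟯ F] [Algebra.IsSeparable K⟮x⟯ F] : HasPrincipalDivisors K F := by
  have hres : ∀ v : Place K F, v.FiniteResidue := finiteResidue x
  have hx0 : x ≠ 0 := by
    rintro rfl
    exact hx isAlgebraic_zero
  refine ⟨fun f hf => ?_⟩
  by_cases hfa : IsAlgebraic K f
  · exact ⟨0, fun v => by
      rw [Finsupp.zero_apply, S24.A564.KR.ord_eq_zero_of_isAlgebraic v hfa], map_zero _⟩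
  have hft : Transcendental K f := hfa
  have hfd : FiniteDimensional K⟮f⟯ F := finiteDimensional_adjoin x f hx hft
  by_cases hsep : Algebra.IsSeparable K⟮f⟯ F
  · exact exists_divisor_of_isSeparable f hft
  · obtain ⟨htr, hsep'⟩ := isSeparable_mul x hx f hft hsep
    have hfd' : FiniteDimensional K⟮f * x⟯ F := finiteDimensional_adjoin x (f * x) hx htr
    obtain ⟨D₁, hD₁, hdeg₁⟩ := exists_divisor_of_isSeparable (K := K) (f * x) htr
    obtain ⟨D₂, hD₂, hdeg₂⟩ := exists_divisor_of_isSeparable (K := K) x hx
    refine ⟨D₁ - D₂, fun v => ?_, ?_⟩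
    · rw [Finsupp.sub_apply, hD₁, hD₂, v.ord_mul hf hx0]
      ring
    · rw [map_sub, hdeg₁, hdeg₂, sub_zero]

end Fermat.Agent.S18.FF.PD
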